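/-
PROJECT W (S52, the 3-5 switch), leaf (T4) = SEMISTABILITY, file `Semi/Model` (helper7).

**THE INTEGRAL MODEL OF THE FIBRE `E_t` OF helper21's KLEIN FAMILY, FOR `6 ^ 6 ∣ t`.**

`W = ⟨a₁, a₂, a₃, a₄, a₆⟩` over `ℤ`, `h = -9 c₄(W)`, `k = -27 c₆(W)`.  For `t = 6 ^ 6 * s` put
`W' := ⟨a₁, a₂, a₃, a₄ + x, a₆ + y⟩`, `x = 108 s · HfTail`, `y = 9 b₂ s · HfTail + 2 s · TfTail`
(`Hf h k t = h + t · HfTail`, `Tf h k t = k + t · TfTail`).  Then, with NO division anywhere,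

* `-9 c₄(W') = Hf h k t`, `-27 c₆(W') = Tf h k t` (`hOf_fibre`, `kOf_fibre`);
* `Δ(W') = Δ(W) · df h k t ^ 5` (`Δ_fibre`, from helper21's `KleinFamily.syzygy`);
* `df h k t = 1 + t · dfTail`, so `df h k t` is prime to `t` (`isCoprime_df`) and `≠ 0` for `2 ∣ t`.
-/
import Mathlib
import Fermat.Agent.S52.KleinFamily

set_option autoImplicit false
set_option linter.unusedVariables false

namespace Fermat.Agent.S52.Semi.Model

open Fermat.Agent.S52.KleinFamily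

/-! ### the tails of the three polynomials -/

section Tails

variable {R : Type*} [CommRing R]

/-- `(Hf h k t - h) / t` -/
def HfTail (h k t : R) : R :=
  hc1 h k + t * (hc2 h k + t * (hc3 h k + t * (hc4 h k + t * (hc5 h k + t * (hc6 h k + t * (hc7 h k + t * (hc8 h k + t * (hc9 h k + t * (hc10 h k + t * (hc11 h k + t * (hc12 h k + t * (hc13 h k + t * (hc14 h k + t * (hc15 h k + t * (hc16 h k + t * (hc17 h k + t * (hc18 h k + t * (hc19 h k + t * (hc20 h k)))))))))))))))))))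

/-- `(Tf h k t - k) / t` -/
def TfTail (h k t : R) : R :=
  tc1 h k + t * (tc2 h k + t * (tc3 h k + t * (tc4 h k + t * (tc5 h k + t * (tc6 h k + t * (tc7 h k + t * (tc8 h k + t * (tc9 h k + t * (tc10 h k + t * (tc11 h k + t * (tc12 h k + t * (tc13 h k + t * (tc14 h k + t * (tc15 h k + t * (tc16 h k + t * (tc17 h k + t * (tc18 h k + t * (tc19 h k + t * (tc20 h k + t * (tc21 h k + t * (tc22 h k + t * (tc23 h k + t * (tc24 h k + t * (tc25 h k + t * (tc26 h k + t * (tc27 h k + t * (tc28 h k + t * (tc29 h k + t * (tc30 h k)))))))))))))))))))))))))))))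

/-- `(df h k t - 1) / t` -/
def dfTail (h k t : R) : R :=
  dc1 h k + t * (dc2 h k + t * (dc3 h k + t * (dc4 h k + t * (dc5 h k + t * (dc6 h k + t * (dc7 h k + t * (dc8 h k + t * (dc9 h k + t * (dc10 h k + t * (dc11 h k + t * (dc12 h k)))))))))))

theorem Hf_eq (h k t : R) : Hf h k t = h + t * HfTail h k t := by
  unfold Hf HfTail hc0
  ring

theorem Tf_eq (h k t : R) : Tf h k t = k + t * TfTail h k t := by
  unfold Tf TfTail tc0
  ring

theorem df_eq (h k t : R) : df h k t = 1 + t * dfTail h k t := by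
  unfold df dfTail dc0
  ring

end Tails

/-! ### the model -/

section Model

variable (W : WeierstrassCurve ℤ)

/-- `h = -9 c₄` -/
def hOf : ℤ := -9 * W.c₄

/-- `k = -27 c₆` -/
def kOf : ℤ := -27 * W.c₆

/-- the model with the same `a₁ a₂ a₃` and `a₄ + x`, `a₆ + y` -/
def shift (x y : ℤ) : WeierstrassCurve ℤ := ⟨W.a₁, W.a₂, W.a₃, W.a₄ + x, W.a₆ + y⟩

theorem c₄_shift (x y : ℤ) : (shift W x y).c₄ = W.c₄ - 48 * x := by
  simp only [shift, WeierstrassCurve.c₄, WeierstrassCurve.b₂, WeierstrassCurve.b₄]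
  ring

theorem c₆_shift (x y : ℤ) : (shift W x y).c₆ = W.c₆ + 72 * W.b₂ * x - 864 * y := by
  simp only [shift, WeierstrassCurve.c₆, WeierstrassCurve.b₂, WeierstrassCurve.b₄,
    WeierstrassCurve.b₆]
  ring

/-- `k² + h³ = -729 · 1728 Δ` -/
theorem kOf_sq_add_hOf_cube : kOf W ^ 2 + hOf W ^ 3 = -(729 * 1728) * W.Δ := by
  have h := W.c_relation
  unfold kOf hOf
  linear_combination (729 : ℤ) * h

/-- **the integral model of the fibre at `t = 6 ^ 6 * s`** -/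
def fibre (s : ℤ) : WeierstrassCurve ℤ :=
  shift W (108 * s * HfTail (hOf W) (kOf W) (6 ^ 6 * s))
    (9 * W.b₂ * s * HfTail (hOf W) (kOf W) (6 ^ 6 * s) +
      2 * s * TfTail (hOf W) (kOf W) (6 ^ 6 * s))

/-- `-9 c₄(W') = Hf h k t` -/
theorem hOf_fibre (s : ℤ) : hOf (fibre W s) = Hf (hOf W) (kOf W) (6 ^ 6 * s) := by
  rw [Hf_eq]
  unfold fibre
  rw [hOf, c₄_shift]
  unfold hOf
  ring

/-- `-27 c₆(W') = Tf h k t` -/
theorem kOf_fibre (s : ℤ) : kOf (fibre W s) = Tf (hOf W) (kOf W) (6 ^ 6 * s) := by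
  rw [Tf_eq]
  unfold fibre
  rw [kOf, c₆_shift]
  unfold kOf
  ring

/-- **`Δ(W') = Δ(W) · df(t) ^ 5`** -/
theorem Δ_fibre (s : ℤ) : (fibre W s).Δ = W.Δ * df (hOf W) (kOf W) (6 ^ 6 * s) ^ 5 := by
  have h1 := kOf_sq_add_hOf_cube (fibre W s)
  rw [hOf_fibre, kOf_fibre, syzygy, kOf_sq_add_hOf_cube] at h1
  have h2 : (-(729 * 1728) : ℤ) ≠ 0 := by norm_num
  apply mul_left_cancel₀ h2
  linear_combination -h1

/-- `c₄(W') = c₄(W) - 5184 s · HfTail` : congruent to `c₄(W)` modulo every divisor of `5184 s` -/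
theorem c₄_fibre (s : ℤ) :
    (fibre W s).c₄ = W.c₄ - 5184 * s * HfTail (hOf W) (kOf W) (6 ^ 6 * s) := by
  unfold fibre
  rw [c₄_shift]
  ring

/-- `9 c₄(W') = -Hf h k t` -/
theorem nine_mul_c₄_fibre (s : ℤ) : 9 * (fibre W s).c₄ = -Hf (hOf W) (kOf W) (6 ^ 6 * s) := by
  rw [← hOf_fibre, hOf]
  ring

end Model

/-! ### `df(t)` is prime to `t` -/

theorem isCoprime_df (h k t : ℤ) : IsCoprime (df h k t) t :=
  ⟨1, -dfTail h k t, by rw [df_eq]; ring⟩

theorem not_dvd_df {p : ℕ} (hp : p.Prime) (h k t : ℤ) (hpt : (p : ℤ) ∣ t) :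
    ¬ (p : ℤ) ∣ df h k t := by
  intro hd
  have h1 : IsUnit (p : ℤ) := (isCoprime_df h k t).isUnit_of_dvd' hd hpt
  have h2 := Int.isUnit_iff.mp h1
  have h3 := hp.one_lt
  omega

theorem df_ne_zero (h k t : ℤ) (h2 : (2 : ℤ) ∣ t) : df h k t ≠ 0 := by
  intro h0
  have h1 := not_dvd_df Nat.prime_two h k t (by exact_mod_cast h2)
  exact h1 (by rw [h0]; exact dvd_zero _)

end Fermat.Agent.S52.Semi.Model
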