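/-
PROJECT W (S52, the 3-5 switch), leaf (T4) = SEMISTABILITY, file `Semi/Away` (helper7).

**AWAY FROM THE BAD PRIMES OF `W`** : a prime `p ∤ Δ(W)` with `p ∣ Δ(W') = Δ(W) df(t) ^ 5` divides
`df(t)`, hence is prime to `t`; if `t` is divisible by `6`, by `Δ(W)` and by the constant `κ` of a
Bezout identity `u Hf + v df = κ (k² + h³) ^ m` (`CopHyp`, = helper21's `KleinCoprime`), then
`p ∤ Hf(t) = -9 c₄(W')`.
-/
import Mathlib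
import Fermat.Agent.S52.Semi.Model

set_option autoImplicit false

namespace Fermat.Agent.S52.Semi.Away

open Fermat.Agent.S52.KleinFamily Fermat.Agent.S52.Semi.Model

/-- **the coprimality of `Hf` and `df` along the family**, Bezout form over `ℤ` (for every integral
`(h, k, t)` an integral combination of `Hf h k t` and `df h k t` is `κ (k² + h³) ^ m`) -/
def CopHyp : Prop :=
  ∃ (κ : ℤ) (m : ℕ), κ ≠ 0 ∧
    ∀ h k t : ℤ, ∃ u v : ℤ, u * Hf h k t + v * df h k t = κ * (k ^ 2 + h ^ 3) ^ m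

variable (W : WeierstrassCurve ℤ)

/-- a prime `p ∤ 6 Δ(W)` does not divide `k² + h³ = -729 · 1728 Δ(W)` -/
theorem not_dvd_disc {p : ℕ} (hp : p.Prime) (h2 : ¬ (p : ℤ) ∣ 2) (h3 : ¬ (p : ℤ) ∣ 3)
    (hΔ : ¬ (p : ℤ) ∣ W.Δ) : ¬ (p : ℤ) ∣ kOf W ^ 2 + hOf W ^ 3 := by
  have hpp : Prime (p : ℤ) := Nat.prime_iff_prime_int.mp hp
  rw [kOf_sq_add_hOf_cube]
  intro h
  rcases hpp.dvd_or_dvd h with h | h
  · rw [dvd_neg] at h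
    have e : (729 * 1728 : ℤ) = 2 ^ 6 * 3 ^ 9 := by norm_num
    rw [e] at h
    rcases hpp.dvd_or_dvd h with h | h
    · exact h2 (hpp.dvd_of_dvd_pow h)
    · exact h3 (hpp.dvd_of_dvd_pow h)
  · exact hΔ h

/-- **a prime dividing `df(t)` and not dividing `6 Δ(W) κ` does not divide `Hf(t)`** -/
theorem not_dvd_Hf {κ : ℤ} {m : ℕ}
    (hbez : ∀ h k t : ℤ, ∃ u v : ℤ, u * Hf h k t + v * df h k t = κ * (k ^ 2 + h ^ 3) ^ m)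
    {p : ℕ} (hp : p.Prime) (h2 : ¬ (p : ℤ) ∣ 2) (h3 : ¬ (p : ℤ) ∣ 3)
    (hΔ : ¬ (p : ℤ) ∣ W.Δ) (hκ : ¬ (p : ℤ) ∣ κ) (t : ℤ)
    (hdf : (p : ℤ) ∣ df (hOf W) (kOf W) t) : ¬ (p : ℤ) ∣ Hf (hOf W) (kOf W) t := by
  have hpp : Prime (p : ℤ) := Nat.prime_iff_prime_int.mp hp
  intro hHf
  obtain ⟨u, v, huv⟩ := hbez (hOf W) (kOf W) t
  have h1 : (p : ℤ) ∣ κ * (kOf W ^ 2 + hOf W ^ 3) ^ m := by
    rw [← huv]
    exact dvd_add (Dvd.dvd.mul_left hHf u) (Dvd.dvd.mul_left hdf v)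
  rcases hpp.dvd_or_dvd h1 with h | h
  · exact hκ h
  · exact not_dvd_disc W hp h2 h3 hΔ (hpp.dvd_of_dvd_pow h)

/-- **a prime `p ∤ Δ(W)` dividing `Δ(W')` does not divide `c₄(W')`**, for `t = 6 ^ 6 s` with
`κ ∣ s` -/
theorem not_dvd_c₄_fibre {κ : ℤ} {m : ℕ}
    (hbez : ∀ h k t : ℤ, ∃ u v : ℤ, u * Hf h k t + v * df h k t = κ * (k ^ 2 + h ^ 3) ^ m)
    {p : ℕ} (hp : p.Prime) (hΔ : ¬ (p : ℤ) ∣ W.Δ) (s : ℤ) (hκs : κ ∣ s)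
    (hpΔ' : (p : ℤ) ∣ (fibre W s).Δ) : ¬ (p : ℤ) ∣ (fibre W s).c₄ := by
  have hpp : Prime (p : ℤ) := Nat.prime_iff_prime_int.mp hp
  rw [Δ_fibre] at hpΔ'
  have hdf : (p : ℤ) ∣ df (hOf W) (kOf W) (6 ^ 6 * s) := by
    rcases hpp.dvd_or_dvd hpΔ' with h | h
    · exact absurd h hΔ
    · exact hpp.dvd_of_dvd_pow h
  -- `p` is prime to `t`
  have hpt : ¬ (p : ℤ) ∣ 6 ^ 6 * s := fun h => not_dvd_df hp _ _ _ h hdf
  have h2 : ¬ (p : ℤ) ∣ 2 := fun h => hpt (Dvd.dvd.mul_right (h.trans (by norm_num)) s)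
  have h3 : ¬ (p : ℤ) ∣ 3 := fun h => hpt (Dvd.dvd.mul_right (h.trans (by norm_num)) s)
  have hκ : ¬ (p : ℤ) ∣ κ := fun h => hpt (Dvd.dvd.mul_left (h.trans hκs) _)
  have hHf := not_dvd_Hf W hbez hp h2 h3 hΔ hκ (6 ^ 6 * s) hdf
  intro hc
  apply hHf
  rw [← neg_neg (Hf (hOf W) (kOf W) (6 ^ 6 * s)), ← nine_mul_c₄_fibre, dvd_neg]
  exact Dvd.dvd.mul_left hc 9

end Fermat.Agent.S52.Semi.Away
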