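/-
PROJECT W (S52, the 3-5 switch), leaf (T4) = SEMISTABILITY, file `Semi/Close` (helper7).

**AT THE BAD PRIMES OF `W`** : for `p ∣ Δ(W)` and `p ∣ s`, the fibre `W' = fibre W s`
(`t = 6 ^ 6 s`) has `c₄(W') ≡ c₄(W) mod p`, so `p ∤ c₄(W')` when `W` is semistable.
-/
import Mathlib
import Fermat.Prelude.Def_FLTPrelim_Modularity
import Fermat.Agent.S52.Semi.Model

set_option autoImplicit false

namespace Fermat.Agent.S52.Semi.Close

open Fermat.Agent.S52.KleinFamily Fermat.Agent.S52.Semi.Model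

variable (W : WeierstrassCurve ℤ)

/-- `c₄(W') ≡ c₄(W)` modulo every divisor of `s` -/
theorem dvd_c₄_fibre_iff {d : ℤ} (s : ℤ) (hds : d ∣ s) :
    d ∣ (fibre W s).c₄ ↔ d ∣ W.c₄ := by
  rw [c₄_fibre]
  have h1 : d ∣ 5184 * s * HfTail (hOf W) (kOf W) (6 ^ 6 * s) :=
    Dvd.dvd.mul_right (Dvd.dvd.mul_left hds _) _
  exact (dvd_sub_left h1)

/-- **a bad prime of a semistable `W` dividing `s` does not divide `c₄(W')`** -/
theorem not_dvd_c₄_fibre (hW : W.IsSemistableModel) {p : ℕ} (hp : p.Prime)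
    (hpΔ : (p : ℤ) ∣ W.Δ) (s : ℤ) (hps : (p : ℤ) ∣ s) : ¬ (p : ℤ) ∣ (fibre W s).c₄ := by
  rw [dvd_c₄_fibre_iff W s hps]
  exact hW p hp hpΔ

end Fermat.Agent.S52.Semi.Close
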