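/-
PROJECT W (S52, the 3-5 switch), leaf (T4) = SEMISTABILITY, file `Semi/Main` (helper7).

**`SemiSeam` (chief W's literal, ruling W-2) FROM THE COPRIMALITY OF `Hf` AND `df`** (`Away.CopHyp`,
helper21's `KleinCoprime`): for a semistable `W` with `Δ ≠ 0` there is `M ≠ 0` such that for every
`t` divisible by `M` the fibre `E_t` of the Klein family through `W` has a semistable integral
model `W'` with `Δ(W') ≠ 0`, `-9 c₄(W') = Hf h k t`, `-27 c₆(W') = Tf h k t`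
(`h = -9 c₄(W)`, `k = -27 c₆(W)`).  `M = 6 ^ 6 · Δ(W) · κ`; `W'` keeps `a₁ a₂ a₃` of `W`.
-/
import Mathlib
import Fermat.Prelude.Def_FLTPrelim_Modularity
import Fermat.Agent.S52.Semi.Close
import Fermat.Agent.S52.Semi.Away

set_option autoImplicit false

namespace Fermat.Agent.S52.Semi.Main

open Fermat.Agent.S52.KleinFamily Fermat.Agent.S52.Semi.Model Fermat.Agent.S52.Semi.Away

/-- **the fibre at `t = 6 ^ 6 s`, `Δ(W) κ ∣ s`, is semistable with `Δ ≠ 0`** -/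
theorem fibre_semistable {κ : ℤ} {m : ℕ}
    (hbez : ∀ h k t : ℤ, ∃ u v : ℤ, u * Hf h k t + v * df h k t = κ * (k ^ 2 + h ^ 3) ^ m)
    (W : WeierstrassCurve ℤ) (hΔ : W.Δ ≠ 0) (hW : W.IsSemistableModel) (s : ℤ)
    (hs : W.Δ * κ ∣ s) :
    (fibre W s).Δ ≠ 0 ∧ (fibre W s).IsSemistableModel := by
  have hΔs : W.Δ ∣ s := (Dvd.intro _ rfl).trans hs
  have hκs : κ ∣ s := (Dvd.intro_left _ rfl).trans hs
  refine ⟨?_, ?_⟩
  · rw [Δ_fibre]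
    refine mul_ne_zero hΔ (pow_ne_zero _ (df_ne_zero _ _ _ ?_))
    exact Dvd.dvd.mul_right (by norm_num) s
  · intro p hp hpΔ'
    by_cases hpΔ : (p : ℤ) ∣ W.Δ
    · exact Close.not_dvd_c₄_fibre W hW hp hpΔ s (hpΔ.trans hΔs)
    · exact Away.not_dvd_c₄_fibre W hbez hp hpΔ s hκs hpΔ'

/-- **`SemiSeam`** in the chief's literal (`hOf W = -9 * W.c₄`, `kOf W = -27 * W.c₆`) -/
theorem semiSeam_of_copHyp (hcop : CopHyp) :
    ∀ W : WeierstrassCurve ℤ, W.Δ ≠ 0 → W.IsSemistableModel →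
      ∃ M : ℤ, M ≠ 0 ∧ ∀ t : ℤ, M ∣ t →
        ∃ W' : WeierstrassCurve ℤ, W'.Δ ≠ 0 ∧ W'.IsSemistableModel ∧
          -9 * W'.c₄ = Hf (-9 * W.c₄) (-27 * W.c₆) t ∧
          -27 * W'.c₆ = Tf (-9 * W.c₄) (-27 * W.c₆) t := by
  obtain ⟨κ, m, hκ, hbez⟩ := hcop
  intro W hΔ hW
  refine ⟨6 ^ 6 * (W.Δ * κ), mul_ne_zero (by norm_num) (mul_ne_zero hΔ hκ), ?_⟩
  rintro t ⟨s', rfl⟩
  have ht : 6 ^ 6 * (W.Δ * κ) * s' = 6 ^ 6 * (W.Δ * κ * s') := by ring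
  obtain ⟨h1, h2⟩ := fibre_semistable hbez W hΔ hW (W.Δ * κ * s') (Dvd.intro _ rfl)
  refine ⟨fibre W (W.Δ * κ * s'), h1, h2, ?_, ?_⟩
  · rw [ht]
    exact hOf_fibre W _
  · rw [ht]
    exact kOf_fibre W _

end Fermat.Agent.S52.Semi.Main
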