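/-
PROJECT W (S52, the 3-5 switch), leaf (T4) = SEMISTABILITY, file `Semi/Seam` (helper7).

The chief's `Seam.SemiSeam` (ruling W-2, `Fermat/Agent/S52/Seam.lean`) from `Semi/Main`:
`Seam.hOf W` and `Seam.kOf W` unfold by `rfl` to `-9 * W.c₄` and `-27 * W.c₆`, which is the literal
`Main.semiSeam_of_copHyp` is stated in.  The single hypothesis left there is `Away.CopHyp`, the
coprimality of `Hf` and `df` away from `k ^ 2 + h ^ 3`; it is discharged by `Coprime.copHyp`
(`Semi/Coprime`: Hessian identity + discriminant of `df`), so `semiSeam` is hypothesis-free.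
-/
import Fermat.Agent.S52.Seam
import Fermat.Agent.S52.Semi.Main
import Fermat.Agent.S52.Semi.Coprime

set_option autoImplicit false

namespace Fermat.Agent.S52.Semi.Seam

/-- **`SemiSeam`** from the coprimality hypothesis -/
theorem semiSeam_of_copHyp (hcop : Fermat.Agent.S52.Semi.Away.CopHyp) :
    Fermat.Agent.S52.Seam.SemiSeam :=
  Fermat.Agent.S52.Semi.Main.semiSeam_of_copHyp hcop

/-- **`SemiSeam`, hypothesis-free** : leaf (T4) of the tree of record -/
theorem semiSeam : Fermat.Agent.S52.Seam.SemiSeam :=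
  semiSeam_of_copHyp Fermat.Agent.S52.Semi.Coprime.copHyp

end Fermat.Agent.S52.Semi.Seam
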